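import Fermat.Agent.A2.H489.TwoExtD
import Fermat.Agent.S18.H393.LocalFree

/-!
# A2 / M2-abs (helper489): the `q`-expansion principle for a two-component model (QEP2)

`Λ` an integrally closed domain (application: `Λ = R[x]`), `w ∈ Λ` a prime element,
`A` the localisation of `Λ` at `(w)` (application: the Gauss valuation ring of `E(x)`), assumed
to be a discrete valuation ring, `K = Frac Λ = Frac A`, `L / K` finite separable,
`V₁ ≠ V₂` valuation subrings of `L` over `A` satisfying `TwoExtHyp`.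

* `TwoExtHyp.qep2` : if `w f` is integral over `Λ` and `f ∈ V₁ ∩ V₂`, then `f` is integral over `Λ`.
* `TwoExtHyp.qep2'` : if `b` is integral over `Λ` and a nonunit of `V₁` and of `V₂`, then `b / w`
  is integral over `Λ`.

So `w B = 𝔭₁ ∩ 𝔭₂` for the integral closure `B` of `Λ` in `L` (`𝔭ᵢ = B ∩ 𝔪_{Vᵢ}`): the special
fibre of the normal model is reduced, with exactly two components.
-/

set_option autoImplicit false

namespace Fermat.Agent.A2.H489

open IsLocalRing

variable {Λ : Type*} [CommRing Λ] [IsDomain Λ] [IsIntegrallyClosed Λ]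
  (K : Type*) {A L : Type*} [CommRing A] [IsDomain A] [IsDiscreteValuationRing A]
  [Algebra Λ A]
  [Field K] [Algebra A K] [IsFractionRing A K] [Algebra Λ K]
  [IsFractionRing Λ K]
  [Field L] [Algebra K L] [Algebra A L] [IsScalarTower A K L]
  [Algebra Λ L] [IsScalarTower Λ A L] [IsScalarTower Λ K L]
  [FiniteDimensional K L] [Algebra.IsSeparable K L]
  {V₁ V₂ : ValuationSubring L} {f₁ f₂ : ℕ} {u₁ : Fin f₁ → L} {u₂ : Fin f₂ → L}

/-- **QEP2.** -/
theorem TwoExtHyp.qep2 (h : TwoExtHyp K A V₁ V₂ u₁ u₂) {w : Λ} (hw : Prime w)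
    [hp : (Ideal.span {w}).IsPrime] [IsLocalization.AtPrime A (Ideal.span {w})]
    {f : L} (hwf : IsIntegral Λ (algebraMap Λ L w * f)) (hf₁ : f ∈ V₁) (hf₂ : f ∈ V₂) :
    IsIntegral Λ f := by
  have hA : IsIntegral A f := (h.isIntegral_iff f).mpr ⟨hf₁, hf₂⟩
  obtain ⟨⟨t, ht⟩, hint⟩ :=
    IsIntegral.exists_multiple_integral_of_isLocalization (Ideal.span {w}).primeCompl f hA
  have ht' : ¬ w ∣ t := by
    intro hdvd
    exact ht (Ideal.mem_span_singleton.mpr hdvd)
  rw [Submonoid.smul_def, Algebra.smul_def] at hint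
  exact Fermat.Agent.S18.H393.isIntegral_of_isIntegral_mul' K hw ht' hwf hint

omit [IsIntegrallyClosed Λ] [IsDomain Λ] in
/-- the image of `w` in the localisation at `(w)` is a uniformiser -/
theorem irreducible_algebraMap_of_atPrime {w : Λ}
    [hp : (Ideal.span {w}).IsPrime] [IsLocalization.AtPrime A (Ideal.span {w})] :
    Irreducible (algebraMap Λ A w) := by
  rw [IsDiscreteValuationRing.irreducible_iff_uniformizer,
    ← IsLocalization.AtPrime.map_eq_maximalIdeal (Ideal.span {w}) A, Ideal.map_span,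
    Set.image_singleton]

/-- **QEP2'.**  `w B = 𝔭₁ ∩ 𝔭₂`. -/
theorem TwoExtHyp.qep2' (h : TwoExtHyp K A V₁ V₂ u₁ u₂) {w : Λ} (hw : Prime w)
    [hp : (Ideal.span {w}).IsPrime] [IsLocalization.AtPrime A (Ideal.span {w})]
    {b : L} (hb : IsIntegral Λ b) (hb₁ : b ∈ V₁.nonunits) (hb₂ : b ∈ V₂.nonunits) :
    IsIntegral Λ (b * (algebraMap Λ L w)⁻¹) := by
  have hirr : Irreducible (algebraMap Λ A w) := irreducible_algebraMap_of_atPrime
  have hw0 : algebraMap Λ L w ≠ 0 := by
    rw [IsScalarTower.algebraMap_apply Λ K L]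
    intro h0
    have h1 : algebraMap Λ K w = 0 := (algebraMap K L).injective (by rw [h0, map_zero])
    exact hw.ne_zero ((IsFractionRing.injective Λ K) (by rw [h1, map_zero]))
  have e : algebraMap Λ L w = algebraMap A L (algebraMap Λ A w) :=
    IsScalarTower.algebraMap_apply Λ A L w
  refine h.qep2 K hw ?_ ?_ ?_
  · rw [mul_comm, mul_assoc, inv_mul_cancel₀ hw0, mul_one]
    exact hb
  · rw [e]
    exact h.uniformizer₁ hirr hb₁
  · rw [e]
    exact h.uniformizer₂ hirr hb₂

end Fermat.Agent.A2.H489
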